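import Fermat.Agent.S58.Spec
import Fermat.Agent.Lib.Ribet.H404.ResMod
import Fermat.Agent.S31.H262.Points

/-!
# Row S58 (helper999): leaf COEFF — `CoeffStatement`, for EVERY prime `lam`

A normalized eigenform `g` of level `M` has, for every finite set `S` of primes, the character
`chig` of the Hecke algebra away from `S` (restriction of helper404's `eigenChar`), and for every
prime `lam` a complete DVR `O'` of characteristic zero with finite residue field, `lam ∈ 𝔪`, and
an injective ring homomorphism `chig.range →+* O'`.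

`chig.range` is a domain, finite (S22) and torsion-free over `ℤ`, so helper262's
`exists_padic_points` gives `lam`-adic points which are jointly strict; there is at least one
(otherwise `lam` would be invertible in `chig.range`), and every point is injective
(`chig.range` is integral over `ℤ` and `O'` has characteristic zero).
-/

set_option autoImplicit false
set_option linter.style.haveILetI false

namespace Fermat.Agent.S58.H999

open CuspForm CongruenceSubgroup ModularFormClass IsLocalRing

/-- a prime number is not invertible in a subring of `ℂ` which is integral over `ℤ` -/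
theorem not_isUnit_prime_of_integral (B : Subring ℂ) (hB : ∀ x : B, IsIntegral ℤ (x : ℂ))
    (lam : ℕ) (hlam : lam.Prime) (b : B) (hb : b * (lam : B) = 1) : False := by
  have h1 : (b : ℂ) * (lam : ℂ) = 1 := by
    have := congrArg (Subtype.val : B → ℂ) hb
    simpa using this
  have hlam0 : (lam : ℂ) ≠ 0 := Nat.cast_ne_zero.mpr hlam.ne_zero
  have h2 : (b : ℂ) = algebraMap ℚ ℂ ((lam : ℚ)⁻¹) := by
    rw [map_inv₀, map_natCast]
    exact eq_inv_of_mul_eq_one_left h1
  have h3 : IsIntegral ℤ ((lam : ℚ)⁻¹) := by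
    have := hB b
    rw [h2] at this
    exact (isIntegral_algebraMap_iff (algebraMap ℚ ℂ).injective).mp this
  obtain ⟨y, hy⟩ := IsIntegrallyClosed.isIntegral_iff.mp h3
  have hlamq : (lam : ℚ) ≠ 0 := Nat.cast_ne_zero.mpr hlam.ne_zero
  have h4 : (y : ℚ) * (lam : ℚ) = 1 := by
    have : (algebraMap ℤ ℚ y) = (y : ℚ) := rfl
    rw [← this, hy, inv_mul_cancel₀ hlamq]
  have h5 : y * (lam : ℤ) = 1 := by exact_mod_cast h4
  have h6 : (lam : ℤ) ∣ 1 := Dvd.intro_left y h5
  have h7 : (lam : ℤ) = 1 ∨ (lam : ℤ) = -1 := Int.isUnit_iff.mp (isUnit_of_dvd_one h6)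
  have h8 := hlam.one_lt
  omega

/-- **Leaf COEFF.** -/
theorem coeff : Fermat.Agent.S58.CoeffStatement := by
  intro M _ g hg S lam _
  classical
  have hlamp : lam.Prime := Fact.out
  let incl : heckeAlgebra M 2 (↑S : Set ℕ) →+* heckeAlgebra M 2 (∅ : Set ℕ) :=
    (Subalgebra.inclusion (heckeAlgebra_mono (Set.empty_subset _))).toRingHom
  let chig : heckeAlgebra M 2 (↑S : Set ℕ) →+* ℂ :=
    (Fermat.Agent.Lib.Ribet.H404.eigenChar hg).comp incl
  refine ⟨chig, ?_, ?_⟩
  · intro ℓ hℓ hℓM hℓS
    have : incl (heckeAlgebra.T hℓ hℓM hℓS) = heckeAlgebra.T hℓ hℓM (Set.notMem_empty _) :=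
      Subtype.ext rfl
    rw [RingHom.comp_apply, this, Fermat.Agent.Lib.Ribet.H404.eigenChar_T]
  · -- integrality
    have hfin : Module.Finite ℤ (heckeAlgebra M 2 (↑S : Set ℕ)) := Fermat.Agent.S22.result M 2 _
    have hint : ∀ x : chig.range, IsIntegral ℤ (x : ℂ) := by
      rintro ⟨x, t, rfl⟩
      have ht : IsIntegral ℤ t := Algebra.IsIntegral.isIntegral t
      exact ht.map chig.toIntAlgHom
    haveI : Module.Finite ℤ chig.range :=
      Module.Finite.of_surjective (chig.rangeRestrict.toIntAlgHom.toLinearMap)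
        chig.rangeRestrict_surjective
    haveI : Algebra.IsIntegral ℤ chig.range := Algebra.IsIntegral.of_finite ℤ _
    obtain ⟨ι, hι, 𝒪, i1, i2, i3, i4, i5, i6, χ, hpm, hstrict⟩ :=
      Fermat.Agent.S31.H262.exists_padic_points lam chig.range
    -- there is at least one point
    have hne : Nonempty ι := by
      by_contra hemp
      rw [not_nonempty_iff] at hemp
      obtain ⟨m, hm⟩ := hstrict 1
      have h1 : (1 : chig.range) ∈ Ideal.span {((lam : ℕ) : chig.range) ^ 1} :=
        hm 1 (fun j => (hemp.false j).elim)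
      rw [pow_one, Ideal.mem_span_singleton'] at h1
      obtain ⟨b, hb⟩ := h1
      exact not_isUnit_prime_of_integral chig.range hint lam hlamp b hb
    obtain ⟨j⟩ := hne
    refine ⟨𝒪 j, i1 j, i2 j, i3 j, i4 j, i5 j, i6 j, hpm j, χ j, ?_⟩
    -- injectivity
    letI := i1 j
    letI := i2 j
    letI := i6 j
    rw [RingHom.injective_iff_ker_eq_bot]
    apply Ideal.eq_bot_of_comap_eq_bot (R := ℤ)
    rw [eq_bot_iff]
    intro n hn
    rw [Ideal.mem_comap, RingHom.mem_ker, eq_intCast, map_intCast] at hn
    rw [Ideal.mem_bot]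
    exact_mod_cast hn

end Fermat.Agent.S58.H999
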