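import Fermat.Agent.S58.H999.Key
import Fermat.Agent.S59.H540.DetCyc
import Fermat.Agent.S59.H240.UnipInput
import Fermat.Agent.S59.H899.Unram

/-!
# Row S58 (helper999): comparison of a modular `ρ` with the Tate module — relation-based

`compare_rel` is a drop-in replacement of `Fermat.Agent.S58.compare_tate` (helper41's glue) which
needs NEITHER leaf TATE (`TateRepStatement`: Frobenius characteristic polynomials of `T_λ(W)`,
i.e. the determinant of the Tate module at an auxiliary prime) NOR leaf CHEB: for a semistable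
`W` and a `λ`-adic `ρ` with `charpoly ρ(Frob_ℓ) = X² - a_ℓ(W) X + ℓ` for all primes `ℓ` outside a
finite set,

* `ρ` is unipotent on every inertia group at `q ≠ λ`;
* `charpoly ρ(σ) = X² - a_ℓ(W) X + ℓ` for every Frobenius element at every good prime `ℓ ≠ λ`.

Only relations on the Tate module are used (`Lib.Frob.Small.frobRelationAll`,
`H240.unipInput_of_semistable`, `H899.inertia_smul_eq_self_of_good`) together with
`det ρ = ` cyclotomic (`H540.detIsCyclotomic_of_charpoly_frob`).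
-/

set_option autoImplicit false
set_option linter.style.haveILetI false

namespace Fermat.Agent.S58.H999

open IsLocalRing Polynomial WeierstrassCurve Fermat.Agent.S59.H127

section Det

variable {O : Type} [CommRing O] [IsLocalRing O] [IsNoetherianRing O]
  (lam : ℕ) [Fact lam.Prime]

/-- an element of a noetherian local ring divisible by all powers of `λ ∈ 𝔪` is zero -/
theorem eq_zero_of_forall_mem_span_pow (hlam : (lam : O) ∈ maximalIdeal O) {z : O}
    (h : ∀ n : ℕ, z ∈ Ideal.span {((lam ^ n : ℕ) : O)}) : z = 0 := by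
  have hbot := Ideal.iInf_pow_eq_bot_of_isLocalRing (maximalIdeal O) (Ideal.IsPrime.ne_top')
  rw [← Ideal.mem_bot, ← hbot, Ideal.mem_iInf]
  intro n
  have hle : Ideal.span {((lam ^ n : ℕ) : O)} ≤ maximalIdeal O ^ n := by
    rw [Ideal.span_le, Set.singleton_subset_iff, Nat.cast_pow]
    exact Ideal.pow_mem_pow hlam n
  exact hle (h n)

/-- the determinant of a Frobenius element at `ℓ ≠ λ` is `ℓ` -/
theorem det_frob_eq {ρ : GaloisRepAdic O} (hdet : ρ.DetIsCyclotomic lam)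
    {ℓ : ℕ} (hℓ : ℓ.Prime) (hℓlam : ℓ ≠ lam) (A : ValuationSubring (AlgebraicClosure ℚ))
    (hA : A.LiesOverPrime ℓ) (σ : GQ) (hσ : A.IsFrobeniusAt σ ℓ) :
    LinearMap.det (ρ.ρ σ) = (ℓ : O) := by
  rw [← sub_eq_zero]
  apply eq_zero_of_forall_mem_span_pow lam hdet.1
  intro n
  exact hdet.2 n σ ℓ fun μ hμ =>
    Fermat.Agent.S30.H870.frob_root_pow_eq lam hℓ hℓlam A hA σ hσ hμ

/-- the determinant of an element of inertia at `q ≠ λ` is `1` -/
theorem det_inertia_eq_one {ρ : GaloisRepAdic O} (hdet : ρ.DetIsCyclotomic lam)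
    {q : ℕ} (hq : q.Prime) (hqlam : q ≠ lam) (A : ValuationSubring (AlgebraicClosure ℚ))
    (hA : A.LiesOverPrime q) (σ : GQ) (hσ : σ ∈ A.inertiaSubgroupIn ℚ) :
    LinearMap.det (ρ.ρ σ) = 1 := by
  rw [← sub_eq_zero]
  apply eq_zero_of_forall_mem_span_pow lam hdet.1
  intro n
  have := hdet.2 n σ 1 fun μ hμ => by
    rw [pow_one]
    exact Fermat.Agent.S30.H870.inertia_root_eq lam hq hqlam A hA σ hσ hμ
  rwa [Nat.cast_one] at this

end Det

section Compare

variable (W : WeierstrassCurve ℤ) (hΔ : W.Δ ≠ 0) (lam : ℕ) [Fact lam.Prime]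
  {O : Type} [CommRing O] [IsDomain O] [IsLocalRing O] [IsNoetherianRing O]
  [IsAdicComplete (maximalIdeal O) O] (hlam : (lam : O) ∈ maximalIdeal O)

include hΔ in
/-- `(σ - 1)² = 0` on `W[λ^∞]` for `σ` in inertia at `q ≠ λ` (`W` semistable) -/
theorem inertia_sub_one_sq (hss : W.IsSemistableModel) {q : ℕ} (hq : q.Prime) (hqlam : q ≠ lam)
    (A : ValuationSubring (AlgebraicClosure ℚ)) (hA : A.LiesOverPrime q) (σ : GQ)
    (hσ : σ ∈ A.inertiaSubgroupIn ℚ) (n : ℕ) (x : Pts W) (hx : lam ^ n • x = 0) :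
    σ • σ • x - (2 : ℤ) • σ • x + (1 : ℤ) • x = 0 := by
  have hlamp : lam.Prime := Fact.out
  by_cases hgood : W.IsGoodPrimeFor q
  · have hm : ¬ q ∣ lam ^ n := fun h =>
      hqlam ((Nat.prime_dvd_prime_iff_eq hq hlamp).mp (hq.dvd_of_dvd_pow h))
    have h1 : σ • x = x :=
      Fermat.Agent.S59.H899.inertia_smul_eq_self_of_good W hq hgood hm A hA σ hσ x hx
    rw [h1, h1, one_smul, ofNat_zsmul, two_nsmul]
    abel
  · exact Fermat.Agent.S59.H240.unipInput_of_semistable lam hlamp W hΔ hss q hq hgood hqlam A hA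
      σ hσ n x hx

include hΔ hlam in
/-- **Unipotent inertia.**  A `λ`-adic `ρ` with the Frobenius characteristic polynomials of a
semistable `W` outside a finite set is unipotent on every inertia group at `q ≠ λ`. -/
theorem isUnipotentOnInertiaAt_of_frob (hss : W.IsSemistableModel)
    (ρ : GaloisRepAdic O) (S₀ : Finset ℕ)
    (hS₀ : ∀ ℓ : ℕ, ℓ.Prime → ℓ ∉ S₀ → W.IsGoodPrimeFor ℓ ∧ ℓ ≠ lam)
    (hρ : ∀ ℓ : ℕ, ℓ.Prime → ℓ ∉ S₀ →
      ∀ P : ValuationSubring (AlgebraicClosure ℚ), P.LiesOverPrime ℓ →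
        ∀ τ : GQ, P.IsFrobeniusAt τ ℓ →
          LinearMap.charpoly (ρ.ρ τ) = X ^ 2 - C ((W.apOfModel ℓ : ℤ) : O) * X + C (ℓ : O))
    (q : ℕ) (hq : q.Prime) (hqlam : q ≠ lam) : ρ.IsUnipotentOnInertiaAt q := by
  intro A hA σ hσ
  have hdet : ρ.DetIsCyclotomic lam :=
    Fermat.Agent.S59.H540.detIsCyclotomic_of_charpoly_frob ρ lam hlam S₀
      (fun ℓ => ((W.apOfModel ℓ : ℤ) : O)) hρ
  have hd : LinearMap.det (ρ.ρ σ) = 1 := det_inertia_eq_one lam hdet hq hqlam A hA σ hσ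
  have hchar := charpoly_eq_of_finrank_two ρ.finrank_eq (ρ.ρ σ)
  rw [hd] at hchar
  -- the trace is `2`
  have h1 := tate_transfer W hΔ lam hlam ρ S₀ hS₀ hρ σ
  rw [hchar] at h1
  have ht : LinearMap.trace O ρ.V (ρ.ρ σ) = 2 := by
    rw [← sub_eq_zero]
    apply eq_zero_of_smul_rho_eq_zero (tateRepO W hΔ lam hlam) σ
    intro v
    have h2 := congrArg (fun f => f v) h1
    simp only [aeval_quadratic_apply, LinearMap.zero_apply] at h2
    have h3 := tateRepO_quadratic W hΔ lam hlam σ 2 1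
      (inertia_sub_one_sq W hΔ lam hss hq hqlam A hA σ hσ) v
    rw [Int.cast_ofNat, Int.cast_one] at h3
    rw [sub_smul]
    set F := (tateRepO W hΔ lam hlam).ρ σ with hF
    calc LinearMap.trace O ρ.V (ρ.ρ σ) • F v - (2 : O) • F v
        = (F (F v) - (2 : O) • F v + (1 : O) • v)
          - (F (F v) - LinearMap.trace O ρ.V (ρ.ρ σ) • F v + (1 : O) • v) := by abel
      _ = 0 := by rw [h3, h2, sub_zero]
  rw [hchar, ht]
  simp only [map_one, map_ofNat]
  ring

include hΔ hlam in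
/-- **Frobenius characteristic polynomials at ALL good primes `ℓ ≠ λ`.** -/
theorem charpoly_frob_of_frob (ρ : GaloisRepAdic O) (S₀ : Finset ℕ)
    (hS₀ : ∀ ℓ : ℕ, ℓ.Prime → ℓ ∉ S₀ → W.IsGoodPrimeFor ℓ ∧ ℓ ≠ lam)
    (hρ : ∀ ℓ : ℕ, ℓ.Prime → ℓ ∉ S₀ →
      ∀ P : ValuationSubring (AlgebraicClosure ℚ), P.LiesOverPrime ℓ →
        ∀ τ : GQ, P.IsFrobeniusAt τ ℓ →
          LinearMap.charpoly (ρ.ρ τ) = X ^ 2 - C ((W.apOfModel ℓ : ℤ) : O) * X + C (ℓ : O))
    (q : ℕ) (hq : q.Prime) (hgood : W.IsGoodPrimeFor q) (hqlam : q ≠ lam)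
    (A : ValuationSubring (AlgebraicClosure ℚ)) (hA : A.LiesOverPrime q) (σ : GQ)
    (hσ : A.IsFrobeniusAt σ q) :
    LinearMap.charpoly (ρ.ρ σ) = X ^ 2 - C ((W.apOfModel q : ℤ) : O) * X + C (q : O) := by
  have hdet : ρ.DetIsCyclotomic lam :=
    Fermat.Agent.S59.H540.detIsCyclotomic_of_charpoly_frob ρ lam hlam S₀
      (fun ℓ => ((W.apOfModel ℓ : ℤ) : O)) hρ
  have hd : LinearMap.det (ρ.ρ σ) = (q : O) := det_frob_eq lam hdet hq hqlam A hA σ hσ
  have hchar := charpoly_eq_of_finrank_two ρ.finrank_eq (ρ.ρ σ)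
  rw [hd] at hchar
  rw [hchar, trace_eq_apOfModel W hΔ lam hlam ρ S₀ hS₀ hρ q hq hgood hqlam A hA σ hσ _ hchar]

end Compare

end Fermat.Agent.S58.H999
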