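import Fermat.Agent.S58.H999.Compare
import Fermat.Agent.S58.Glue
import Fermat.Agent.S58.H825.Frob
import Fermat.Agent.S58.H825.Count
import Fermat.Agent.Lib.Newform.Main

/-!
# Row S58 (helper999): relation-based glue — S58 from S35 + S36 + COEFF + RES only

`compare_rel` has the conclusion of `Fermat.Agent.S58.compare_tate` (helper41) but needs neither
leaf TATE (`TateRepStatement`) nor leaf CHEB; `s58_of_rel` is helper41's `s58_of_leaves` with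
`compare_tate` replaced by `compare_rel` and the landed leaves FROB, COUNT, NEWFORM plugged in:

`s58_of_rel : S35Statement → S36Statement → CoeffStatement → ResidualStatement → S58Statement`.
-/

set_option autoImplicit false

open Polynomial

namespace Fermat.Agent.S58.H999

open Fermat.Agent.S58 Fermat.Agent.Lib.Newform

/-- **Comparison with the Tate module, relation-based** (cf. `Fermat.Agent.S58.compare_tate`). -/
theorem compare_rel
    (W : WeierstrassCurve ℤ) (hΔ : W.Δ ≠ 0) (hss : W.IsSemistableModel)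
    {N M : ℕ} (hN0 : N ≠ 0) (hMN : M ∣ N) [NeZero M]
    (g : CuspForm (CongruenceSubgroup.Gamma0 M) 2)
    (hgW : ∀ ℓ : ℕ, ℓ.Prime → W.IsGoodPrimeFor ℓ → ¬ ℓ ∣ N →
      ModularFormClass.qCoeff g ℓ = (W.apOfModel ℓ : ℂ))
    (lam : ℕ) [Fact lam.Prime]
    (O' : Type) [CommRing O']
    (chig : CuspForm.heckeAlgebra M 2 (↑(insert lam M.primeFactors : Finset ℕ) : Set ℕ) →+* ℂ)
    (hchig : ∀ (ℓ : ℕ) (hℓ : ℓ.Prime) (hℓM : ¬ ℓ ∣ M)
      (hℓS : ℓ ∉ (↑(insert lam M.primeFactors : Finset ℕ) : Set ℕ)),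
      chig (CuspForm.heckeAlgebra.T hℓ hℓM hℓS) = ModularFormClass.qCoeff g ℓ)
    (iota : chig.range →+* O')
    (O'' : Type) [CommRing O''] [IsDomain O''] [IsDiscreteValuationRing O'']
    [IsAdicComplete (IsLocalRing.maximalIdeal O'') O''] [Algebra O' O'']
    (hlamO'' : (lam : O'') ∈ IsLocalRing.maximalIdeal O'')
    (ρ : GaloisRepAdic O'')
    (hρ : ∀ (ℓ : ℕ) (hℓ : ℓ.Prime) (hℓM : ¬ ℓ ∣ M)
      (hℓS : ℓ ∉ (↑(insert lam M.primeFactors : Finset ℕ) : Set ℕ)),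
      ∀ A : ValuationSubring (AlgebraicClosure ℚ), A.LiesOverPrime ℓ →
        ∀ σ : AlgebraicClosure ℚ ≃ₐ[ℚ] AlgebraicClosure ℚ, A.IsFrobeniusAt σ ℓ →
          LinearMap.charpoly (ρ.ρ σ) =
            X ^ 2 - C (algebraMap O' O'' ((iota.comp chig.rangeRestrict)
              (CuspForm.heckeAlgebra.T hℓ hℓM hℓS))) * X + C ((ℓ : O''))) :
    (∀ q : ℕ, q.Prime → q ≠ lam → ρ.IsUnipotentOnInertiaAt q) ∧
    (∀ ℓ : ℕ, ℓ.Prime → W.IsGoodPrimeFor ℓ → ℓ ≠ lam →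
      ∀ A : ValuationSubring (AlgebraicClosure ℚ), A.LiesOverPrime ℓ →
        ∀ σ : AlgebraicClosure ℚ ≃ₐ[ℚ] AlgebraicClosure ℚ, A.IsFrobeniusAt σ ℓ →
          LinearMap.charpoly (ρ.ρ σ) =
            X ^ 2 - C ((W.apOfModel ℓ : ℤ) : O'') * X + C ((ℓ : O''))) := by
  classical
  -- the finite set of excluded primes
  let T : Finset ℕ := N.primeFactors ∪ insert lam (W.Δ.natAbs.primeFactors)
  have hT : ∀ ℓ : ℕ, ℓ.Prime → ℓ ∉ T → ¬ ℓ ∣ N ∧ ℓ ≠ lam ∧ W.IsGoodPrimeFor ℓ := by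
    intro ℓ hℓ hℓT
    simp only [T, Finset.mem_union, Finset.mem_insert, not_or] at hℓT
    refine ⟨fun h => hℓT.1 (Nat.mem_primeFactors.mpr ⟨hℓ, h, hN0⟩), hℓT.2.1, ?_⟩
    intro h
    apply hℓT.2.2
    rw [Nat.mem_primeFactors]
    refine ⟨hℓ, ?_, Int.natAbs_ne_zero.mpr hΔ⟩
    exact Int.natCast_dvd.mp h
  have hS₀ : ∀ ℓ : ℕ, ℓ.Prime → ℓ ∉ T → W.IsGoodPrimeFor ℓ ∧ ℓ ≠ lam :=
    fun ℓ hℓ hℓT => ⟨(hT ℓ hℓ hℓT).2.2, (hT ℓ hℓ hℓT).2.1⟩
  have hρ' : ∀ ℓ : ℕ, ℓ.Prime → ℓ ∉ T →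
      ∀ P : ValuationSubring (AlgebraicClosure ℚ), P.LiesOverPrime ℓ →
        ∀ τ : AlgebraicClosure ℚ ≃ₐ[ℚ] AlgebraicClosure ℚ, P.IsFrobeniusAt τ ℓ →
          LinearMap.charpoly (ρ.ρ τ)
            = X ^ 2 - C ((W.apOfModel ℓ : ℤ) : O'') * X + C (ℓ : O'') := by
    intro ℓ hℓ hℓT A hA σ hσ
    obtain ⟨hℓN, hℓlam, hℓgood⟩ := hT ℓ hℓ hℓT
    have hℓM : ¬ ℓ ∣ M := fun h => hℓN (dvd_trans h hMN)
    have hℓS : ℓ ∉ (↑(insert lam M.primeFactors : Finset ℕ) : Set ℕ) := by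
      simp only [Finset.coe_insert, Set.mem_insert_iff, Finset.mem_coe, not_or]
      exact ⟨hℓlam, fun h => hℓM (Nat.dvd_of_mem_primeFactors h)⟩
    rw [hρ ℓ hℓ hℓM hℓS A hA σ hσ,
      iota_eq_intCast chig iota _ (W.apOfModel ℓ)
        ((hchig ℓ hℓ hℓM hℓS).trans (hgW ℓ hℓ hℓgood hℓN)), map_intCast]
  exact ⟨fun q hq hqlam =>
      isUnipotentOnInertiaAt_of_frob W hΔ lam hlamO'' hss ρ T hS₀ hρ' q hq hqlam,
    fun ℓ hℓ hgood hℓlam A hA σ hσ =>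
      charpoly_frob_of_frob W hΔ lam hlamO'' ρ T hS₀ hρ' ℓ hℓ hgood hℓlam A hA σ hσ⟩

/-- **S58 from S35, S36 and the two leaves COEFF and RES** (everything else is on main). -/
theorem s58_of_rel (h35 : S35Statement) (h36 : S36Statement)
    (hcoeff : CoeffStatement) (hres : ResidualStatement) : S58Statement := by
  have hfrob : FrobExistsStatement := Fermat.Agent.S58.H825.frobExists
  have hcount : PointCountStatement := Fermat.Agent.S58.H825.pointCount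
  have hdesc : H958.Descent := descent
  have hstab : H958.Stab := stab
  intro W hss N p _ hp2 hirr hp2N hN hbad hN3
  classical
  have hpp : p.Prime := Fact.out
  have hN0 : N ≠ 0 := by
    rintro rfl
    exact hN3 2 Nat.prime_two (dvd_zero _)
  haveI : NeZero N := ⟨hN0⟩
  have hΔ : W.Δ ≠ 0 := by
    intro h0
    obtain ⟨ℓ, hℓN, hℓ⟩ := Nat.exists_infinite_primes (N + 1)
    have h1 := hbad ℓ hℓ (by rw [h0]; exact dvd_zero _)
    have h2 := Nat.le_of_dvd (Nat.pos_of_ne_zero hN0) h1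
    omega
  obtain ⟨f, hf, hfa⟩ := hN
  obtain ⟨M, hMN, g, hg, hga⟩ := hdesc N f hf
  have hM0 : M ≠ 0 := fun h => hN0 (by rw [h] at hMN; exact zero_dvd_iff.mp hMN)
  haveI : NeZero M := ⟨hM0⟩
  have hgW : ∀ ℓ : ℕ, ℓ.Prime → W.IsGoodPrimeFor ℓ → ¬ ℓ ∣ N →
      ModularFormClass.qCoeff g ℓ = (W.apOfModel ℓ : ℂ) :=
    fun ℓ hℓ hgood hℓN => (hga ℓ hℓ hℓN).trans (hfa ℓ hℓ hgood hℓN)
  have hS : ∀ (lam ℓ : ℕ), ℓ.Prime → ℓ ≠ lam → ¬ ℓ ∣ M →
      ℓ ∉ (↑(insert lam M.primeFactors : Finset ℕ) : Set ℕ) := by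
    intro lam ℓ _ hℓlam hℓM
    simp only [Finset.coe_insert, Set.mem_insert_iff, Finset.mem_coe, not_or]
    exact ⟨hℓlam, fun h => hℓM (Nat.dvd_of_mem_primeFactors h)⟩
  have hMS : ∀ (lam q : ℕ), q.Prime → q ∣ M → q ∈ insert lam M.primeFactors :=
    fun lam q hq hqM => Finset.mem_insert_of_mem (Nat.mem_primeFactors.mpr ⟨hq, hqM, hM0⟩)
  -- the package at a prime `lam`, from S35
  have key : ∀ (lam : ℕ) [Fact lam.Prime],
      (∀ ℓ : ℕ, ℓ.Prime → W.IsGoodPrimeFor ℓ → ℓ ≠ lam → ¬ ℓ ∣ M →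
        ModularFormClass.qCoeff g ℓ = (W.apOfModel ℓ : ℂ)) ∧
      (∀ q : ℕ, q.Prime → q ≠ lam → q ∣ M → ¬ q ^ 2 ∣ M → ¬ W.IsGoodPrimeFor q) := by
    intro lam _
    obtain ⟨chig, hchig, O', i1, i2, i3, i4, i5, i6, hlamO', iota, hiota⟩ :=
      hcoeff M g hg.1 (insert lam M.primeFactors) lam
    obtain ⟨O'', j1, j2, j3, j4, j5, j6, j7, j8, j9, hinj, ρ, hρ, hρst⟩ :=
      h35 hg lam (insert lam M.primeFactors) O' hlamO' chig hchig iota
        (Finset.mem_insert_self _ _) (hMS lam)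
    have hlamO'' : (lam : O'') ∈ IsLocalRing.maximalIdeal O'' :=
      natCast_mem_maximalIdeal_of_isLocalHom hlamO'
    obtain ⟨-, hchar⟩ := compare_rel W hΔ hss hN0 hMN g hgW lam O' chig hchig
      iota O'' hlamO'' ρ hρ
    refine ⟨?_, ?_⟩
    · intro ℓ hℓ hgood hℓlam hℓM
      obtain ⟨A, σ, hA, hσ⟩ := hfrob ℓ hℓ
      have h1 := hρ ℓ hℓ hℓM (hS lam ℓ hℓ hℓlam hℓM) A hA σ hσ
      have h2 := hchar ℓ hℓ hgood hℓlam A hA σ hσ
      have h3 := quad_left_injective (h1.symm.trans h2)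
      have h4 : (iota.comp chig.rangeRestrict)
          (CuspForm.heckeAlgebra.T hℓ hℓM (hS lam ℓ hℓ hℓlam hℓM)) = ((W.apOfModel ℓ : ℤ) : O') :=
        hinj (by rw [h3, map_intCast])
      rw [← hchig ℓ hℓ hℓM (hS lam ℓ hℓ hℓlam hℓM)]
      exact eq_intCast_of_iota chig iota hiota _ _ h4
    · intro q hq hqlam hqM hq2 hgood
      obtain ⟨A, σ, hA, hσ⟩ := hfrob q hq
      have h2 := hchar q hq hgood hqlam A hA σ hσ
      rcases hρst q hq hqlam hqM hq2 A hA σ hσ with h1 | h1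
      · have h3 := quad_left_injective (h1.symm.trans h2)
        have h4 : (((q : ℤ) + 1 : ℤ) : O'') = ((W.apOfModel q : ℤ) : O'') := by
          rw [← h3]; push_cast; rfl
        exact (hcount W q hq).1 (Int.cast_injective h4).symm
      · rw [quad_plus_eq] at h1
        have h3 := quad_left_injective (h1.symm.trans h2)
        have h4 : ((-((q : ℤ) + 1) : ℤ) : O'') = ((W.apOfModel q : ℤ) : O'') := by
          rw [← h3]; push_cast; rfl
        exact (hcount W q hq).2 (Int.cast_injective h4).symm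
  -- no prime `q ≠ p` with `q² ∥ M`, from S36
  have hno2 : ∀ q : ℕ, q.Prime → q ≠ p → M.factorization q ≠ 2 := by
    intro q hq hqp hfact
    obtain ⟨chig, hchig, O', i1, i2, i3, i4, i5, i6, hlamO', iota, hiota⟩ :=
      hcoeff M g hg.1 (insert p M.primeFactors) p
    -- the set of primes excluded in the residual statement
    let T : Finset ℕ := N.primeFactors ∪ insert p (W.Δ.natAbs.primeFactors)
    have hT : ∀ ℓ : ℕ, ℓ.Prime → ℓ ∉ T → ¬ ℓ ∣ N ∧ ℓ ≠ p ∧ W.IsGoodPrimeFor ℓ := by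
      intro ℓ hℓ hℓT
      simp only [T, Finset.mem_union, Finset.mem_insert, not_or] at hℓT
      refine ⟨fun h => hℓT.1 (Nat.mem_primeFactors.mpr ⟨hℓ, h, hN0⟩), hℓT.2.1, ?_⟩
      intro h
      apply hℓT.2.2
      rw [Nat.mem_primeFactors]
      exact ⟨hℓ, Int.natCast_dvd.mp h, Int.natAbs_ne_zero.mpr hΔ⟩
    obtain ⟨O'', j1, j2, j3, j4, j5, j6, j7, j8, j9, hinj, ρ, hρ, hρnu⟩ :=
      h36 hg p (insert p M.primeFactors) O' hlamO' hp2 chig hchig iota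
        (Finset.mem_insert_self _ _) (hMS p) (by
          intro O'' _ _ _ _ _ _ _ _ _ _ ρ hρ
          have hpO'' : (p : O'') ∈ IsLocalRing.maximalIdeal O'' :=
            natCast_mem_maximalIdeal_of_isLocalHom hlamO'
          refine hres p hp2 W hΔ hirr O'' hpO'' ρ T ?_
          intro ℓ hℓ hℓT A hA σ hσ
          obtain ⟨hℓN, hℓp, hℓgood⟩ := hT ℓ hℓ hℓT
          have hℓM : ¬ ℓ ∣ M := fun h => hℓN (dvd_trans h hMN)
          rw [hρ ℓ hℓ hℓp hℓM (hS p ℓ hℓ hℓp hℓM) A hA σ hσ,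
            iota_eq_intCast chig iota _ (W.apOfModel ℓ)
              ((hchig ℓ hℓ hℓM (hS p ℓ hℓ hℓp hℓM)).trans (hgW ℓ hℓ hℓgood hℓN)), map_intCast])
    have hpO'' : (p : O'') ∈ IsLocalRing.maximalIdeal O'' :=
      natCast_mem_maximalIdeal_of_isLocalHom hlamO'
    obtain ⟨hunip, -⟩ := compare_rel W hΔ hss hN0 hMN g hgW p O' chig hchig
      iota O'' hpO'' ρ hρ
    exact hρnu q hq hqp hfact (hunip q hq hqp)
  -- a second prime
  obtain ⟨p', hp', hp'p⟩ : ∃ p' : ℕ, p'.Prime ∧ p' ≠ p := by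
    by_cases h3 : p = 3
    · exact ⟨5, by norm_num, by omega⟩
    · exact ⟨3, by norm_num, fun h => h3 h.symm⟩
  haveI : Fact p'.Prime := ⟨hp'⟩
  obtain ⟨hB, hC⟩ := key p
  obtain ⟨hB', hC'⟩ := key p'
  -- `M` is squarefree
  have hsq : Squarefree M := by
    refine squarefree_of_forall_not_sq_dvd fun q hq hq2 => ?_
    by_cases hqp : q = p
    · subst hqp
      exact hp2N (dvd_trans hq2 hMN)
    · exact hno2 q hq hqp (factorization_eq_two_of_sq_dvd hq hM0 hq2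
        (fun h3 => hN3 q hq (dvd_trans h3 hMN)))
  -- the primes of `M` are bad
  have hMbad : ∀ q : ℕ, q.Prime → q ∣ M → (q : ℤ) ∣ W.Δ := by
    intro q hq hqM
    have hq2 : ¬ q ^ 2 ∣ M := by
      intro h
      have := (Nat.squarefree_iff_prime_squarefree.mp hsq) q hq
      exact this (by rwa [← pow_two])
    by_contra hgood
    by_cases hqp : q = p
    · exact hC' q hq (fun h => hp'p (h.symm.trans hqp)) hqM hq2 hgood
    · exact hC q hq hqp hqM hq2 hgood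
  have hMD : M ∣ W.conductorLevel :=
    dvd_of_squarefree_of_prime_dvd hsq fun q hq hqM =>
      (W.prime_dvd_conductorLevel_iff hΔ hq).mpr (hMbad q hq hqM)
  obtain ⟨g', hg', hg'a⟩ := hstab M W.conductorLevel hMD g hg.1
  refine ⟨g', hg', fun ℓ hℓ hgood hℓD => ?_⟩
  have hℓM : ¬ ℓ ∣ M := fun h => hℓD (dvd_trans h hMD)
  rw [hg'a ℓ hℓ hℓD]
  by_cases hℓp : ℓ = p
  · exact hB' ℓ hℓ hgood (fun h => hp'p (h.symm.trans hℓp)) hℓM
  · exact hB ℓ hℓ hgood hℓp hℓM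

end Fermat.Agent.S58.H999
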