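import Fermat.Agent.S58.H999.Transfer
import Fermat.Agent.S59.H127.AsmZp
import Fermat.Agent.Lib.Frob.Small.All

/-!
# Row S58 (helper999): the Tate module of `W` at an ARBITRARY prime `λ` against a modular `ρ`

For an integral model `W` with `Δ ≠ 0`, a prime `λ` and a complete noetherian local domain `O` of
characteristic zero with `λ ∈ 𝔪_O`:

* `tateRepO W hΔ lam hlam : GaloisRepAdic O` — the `λ`-adic Tate module of `W`, base changed to `O`;
* `tateRepO_frob` — the Frobenius RELATION `F² - a_ℓ F + ℓ = 0` at every good prime `ℓ ≠ λ`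
  (from `Lib.Frob.Small.frobRelationAll`; NO determinant / Weil pairing / irreducibility needed);
* `trace_eq_apOfModel` (**KEY**) — if `ρ : GaloisRepAdic O` has
  `charpoly ρ(Frob_ℓ) = X² - a_ℓ(W) X + ℓ` for all primes `ℓ` outside a finite set, then for EVERY
  good prime `q ≠ λ` and every Frobenius element `σ` at `q`:
  `charpoly ρ(σ) = X² - t X + q  ⟹  t = a_q(W)`.
* `charpoly_inertia_eq` — same hypotheses + `ρ.DetIsCyclotomic λ`: if `(σ - 1)² = 0` on
  `W[λ^∞]` for `σ` in an inertia group at `q ≠ λ` then `charpoly ρ(σ) = (X - 1)²`.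
-/

set_option autoImplicit false
set_option linter.style.haveILetI false

namespace Fermat.Agent.S58.H999

open IsLocalRing Polynomial WeierstrassCurve Fermat.Agent.S59.H127
open scoped TensorProduct

section Padic

variable (p : ℕ) [Fact p.Prime] {O : Type} [CommRing O] [IsLocalRing O]
  [IsAdicComplete (maximalIdeal O) O] (hp : (p : O) ∈ maximalIdeal O)

/-- the canonical ring homomorphism `ℤ_p → O` -/
noncomputable def padicHom : ℤ_[p] →+* O :=
  Fermat.Agent.S30.H870.padicToComplete p (maximalIdeal O) hp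

theorem isLocalHom_padicHom : IsLocalHom (padicHom p hp) := by
  constructor
  intro x hx
  by_contra hnu
  have hx' : x ∈ maximalIdeal ℤ_[p] := hnu
  rw [PadicInt.maximalIdeal_eq_span_p, Ideal.mem_span_singleton'] at hx'
  obtain ⟨y, rfl⟩ := hx'
  rw [map_mul, map_natCast] at hx
  exact (mem_maximalIdeal _).mp (Ideal.mul_mem_left _ _ hp) hx

end Padic

section Tate

variable (W : WeierstrassCurve ℤ) (hΔ : W.Δ ≠ 0) (lam : ℕ) [Fact lam.Prime]
  {O : Type} [CommRing O] [IsLocalRing O] [IsAdicComplete (maximalIdeal O) O]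
  (hlam : (lam : O) ∈ maximalIdeal O)

/-- the `λ`-adic Tate module of `W` over `ℤ_λ` (in some coordinates) -/
noncomputable def tateRepZ : GaloisRepAdic ℤ_[lam] :=
  haveI := isElliptic_of_Δ_ne_zero W hΔ
  tateGaloisRep (WQ W) (nonempty_compatBasis_point ((WQ W)⁄(AlgebraicClosure ℚ)) lam).some

/-- the `λ`-adic Tate module of `W`, base changed to `O` -/
noncomputable def tateRepO : GaloisRepAdic O :=
  (tateRepZ W hΔ lam).baseChangeAlong (padicHom lam hlam) (isLocalHom_padicHom lam hlam)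

/-- an integral quadratic relation on `W[λ^∞]` holds on the Tate module over `ℤ_λ` -/
theorem tateRepZ_quadratic (σ : GQ) (a b : ℤ)
    (hσ : ∀ (n : ℕ) (x : Pts W), lam ^ n • x = 0 → σ • σ • x - a • σ • x + b • x = 0) :
    (tateRepZ W hΔ lam).ρ σ * (tateRepZ W hΔ lam).ρ σ
      - (a : ℤ_[lam]) • (tateRepZ W hΔ lam).ρ σ
      + (b : ℤ_[lam]) • (1 : Module.End ℤ_[lam] (tateRepZ W hΔ lam).V) = 0 :=
  haveI := isElliptic_of_Δ_ne_zero W hΔ
  tateGaloisRep_quadratic (WQ W) _ σ a b hσ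

/-- an integral quadratic relation on `W[λ^∞]` holds on the Tate module over `O` -/
theorem tateRepO_quadratic (σ : GQ) (a b : ℤ)
    (hσ : ∀ (n : ℕ) (x : Pts W), lam ^ n • x = 0 → σ • σ • x - a • σ • x + b • x = 0)
    (v : (tateRepO W hΔ lam hlam).V) :
    (tateRepO W hΔ lam hlam).ρ σ ((tateRepO W hΔ lam hlam).ρ σ v)
      - (a : O) • (tateRepO W hΔ lam hlam).ρ σ v + (b : O) • v = 0 := by
  letI : Algebra ℤ_[lam] O := (padicHom lam hlam).toAlgebra
  have h := congrArg (Module.End.baseChangeHom ℤ_[lam] O (tateRepZ W hΔ lam).V)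
    (tateRepZ_quadratic W hΔ lam σ a b hσ)
  rw [map_zero, map_add, map_sub, map_mul, map_smul, map_smul, map_one] at h
  have h' := congrArg (fun f => f v) h
  simp only [LinearMap.add_apply, LinearMap.sub_apply, Module.End.mul_apply,
    LinearMap.smul_apply, Module.End.one_apply, LinearMap.zero_apply] at h'
  have e1 : ∀ (c : ℤ) (w : O ⊗[ℤ_[lam]] (tateRepZ W hΔ lam).V),
      (c : ℤ_[lam]) • w = (c : O) • w := by
    intro c w
    rw [← algebraMap_smul O (c : ℤ_[lam]) w]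
    congr 1
    exact map_intCast (padicHom lam hlam) c
  rw [e1, e1] at h'
  exact h'

/-- **The Frobenius relation on the Tate module** at every good prime `ℓ ≠ λ`. -/
theorem tateRepO_frob (ℓ : ℕ) (hℓ : ℓ.Prime) (hgood : W.IsGoodPrimeFor ℓ) (hℓlam : ℓ ≠ lam)
    (A : ValuationSubring (AlgebraicClosure ℚ)) (hA : A.LiesOverPrime ℓ) (σ : GQ)
    (hσ : A.IsFrobeniusAt σ ℓ) (v : (tateRepO W hΔ lam hlam).V) :
    (tateRepO W hΔ lam hlam).ρ σ ((tateRepO W hΔ lam hlam).ρ σ v)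
      - ((W.apOfModel ℓ : ℤ) : O) • (tateRepO W hΔ lam hlam).ρ σ v + (ℓ : O) • v = 0 := by
  have hlamp : lam.Prime := Fact.out
  have := tateRepO_quadratic W hΔ lam hlam σ (W.apOfModel ℓ) (ℓ : ℤ) (fun n x hx =>
    Fermat.Agent.Lib.Frob.Small.frobRelationAll W ℓ hℓ hgood A σ hA hσ (lam ^ n)
      (pow_pos hlamp.pos n)
      (fun hdvd => hℓlam ((Nat.prime_dvd_prime_iff_eq hℓ hlamp).mp (hℓ.dvd_of_dvd_pow hdvd)))
      x hx) v
  rwa [Int.cast_natCast] at this

end Tate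

section Key

variable (W : WeierstrassCurve ℤ) (hΔ : W.Δ ≠ 0) (lam : ℕ) [Fact lam.Prime]
  {O : Type} [CommRing O] [IsDomain O] [IsLocalRing O] [IsNoetherianRing O]
  [IsAdicComplete (maximalIdeal O) O] (hlam : (lam : O) ∈ maximalIdeal O)

omit [IsDomain O] in
/-- the transfer relation for the pair (Tate module of `W`, `ρ`) -/
theorem tate_transfer (ρ : GaloisRepAdic O) (S₀ : Finset ℕ)
    (hS₀ : ∀ ℓ : ℕ, ℓ.Prime → ℓ ∉ S₀ → W.IsGoodPrimeFor ℓ ∧ ℓ ≠ lam)
    (hρ : ∀ ℓ : ℕ, ℓ.Prime → ℓ ∉ S₀ →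
      ∀ P : ValuationSubring (AlgebraicClosure ℚ), P.LiesOverPrime ℓ →
        ∀ τ : GQ, P.IsFrobeniusAt τ ℓ →
          LinearMap.charpoly (ρ.ρ τ) = X ^ 2 - C ((W.apOfModel ℓ : ℤ) : O) * X + C (ℓ : O))
    (σ : GQ) :
    Polynomial.aeval ((tateRepO W hΔ lam hlam).ρ σ) (LinearMap.charpoly (ρ.ρ σ)) = 0 := by
  apply aeval_charpoly_transfer (tateRepO W hΔ lam hlam) ρ S₀
  intro ℓ hℓ hℓS P hP τ hτ
  rw [hρ ℓ hℓ hℓS P hP τ hτ]
  apply LinearMap.ext
  intro v
  rw [aeval_quadratic_apply, LinearMap.zero_apply]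
  exact tateRepO_frob W hΔ lam hlam ℓ hℓ (hS₀ ℓ hℓ hℓS).1 (hS₀ ℓ hℓ hℓS).2 P hP τ hτ v

omit [IsNoetherianRing O] [IsAdicComplete (maximalIdeal O) O] in
/-- a scalar killing an invertible endomorphism of a nonzero free module over a domain is `0` -/
theorem eq_zero_of_smul_rho_eq_zero (ρW : GaloisRepAdic O) (σ : GQ) (c : O)
    (h : ∀ v : ρW.V, c • ρW.ρ σ v = 0) : c = 0 := by
  have hpos : 0 < Module.finrank O ρW.V := by rw [ρW.finrank_eq]; norm_num
  haveI : Nontrivial ρW.V := Module.nontrivial_of_finrank_pos hpos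
  obtain ⟨v, hv⟩ := exists_ne (0 : ρW.V)
  have h1 := h (ρW.ρ σ⁻¹ v)
  have h2 : ρW.ρ σ (ρW.ρ σ⁻¹ v) = v := by
    rw [← Module.End.mul_apply, ← map_mul, mul_inv_cancel, map_one, Module.End.one_apply]
  rw [h2] at h1
  rcases smul_eq_zero.mp h1 with h3 | h3
  · exact h3
  · exact absurd h3 hv

include hΔ hlam in
/-- **KEY.**  The trace of `ρ` at a Frobenius element at ANY good prime `q ≠ λ` is `a_q(W)`,
as soon as this holds outside a finite set of primes (and the constant term is `q`). -/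
theorem trace_eq_apOfModel (ρ : GaloisRepAdic O) (S₀ : Finset ℕ)
    (hS₀ : ∀ ℓ : ℕ, ℓ.Prime → ℓ ∉ S₀ → W.IsGoodPrimeFor ℓ ∧ ℓ ≠ lam)
    (hρ : ∀ ℓ : ℕ, ℓ.Prime → ℓ ∉ S₀ →
      ∀ P : ValuationSubring (AlgebraicClosure ℚ), P.LiesOverPrime ℓ →
        ∀ τ : GQ, P.IsFrobeniusAt τ ℓ →
          LinearMap.charpoly (ρ.ρ τ) = X ^ 2 - C ((W.apOfModel ℓ : ℤ) : O) * X + C (ℓ : O))
    (q : ℕ) (hq : q.Prime) (hgood : W.IsGoodPrimeFor q) (hqlam : q ≠ lam)
    (A : ValuationSubring (AlgebraicClosure ℚ)) (hA : A.LiesOverPrime q) (σ : GQ)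
    (hσ : A.IsFrobeniusAt σ q) (t : O)
    (hchar : LinearMap.charpoly (ρ.ρ σ) = X ^ 2 - C t * X + C (q : O)) :
    t = ((W.apOfModel q : ℤ) : O) := by
  have h1 := tate_transfer W hΔ lam hlam ρ S₀ hS₀ hρ σ
  rw [hchar] at h1
  rw [← sub_eq_zero]
  apply eq_zero_of_smul_rho_eq_zero (tateRepO W hΔ lam hlam) σ
  intro v
  have h2 := congrArg (fun f => f v) h1
  simp only [aeval_quadratic_apply, LinearMap.zero_apply] at h2
  have h3 := tateRepO_frob W hΔ lam hlam q hq hgood hqlam A hA σ hσ v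
  rw [sub_smul]
  set F := (tateRepO W hΔ lam hlam).ρ σ with hF
  calc t • F v - ((W.apOfModel q : ℤ) : O) • F v
      = (F (F v) - ((W.apOfModel q : ℤ) : O) • F v + (q : O) • v)
        - (F (F v) - t • F v + (q : O) • v) := by abel
    _ = 0 := by rw [h3, h2, sub_zero]

end Key

end Fermat.Agent.S58.H999
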