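import Mathlib
import Fermat.Prelude.Def_GaloisRep_Adic
import Fermat.Agent.Lib.Cheb.Chebotarev

/-!
# Row S58 (helper999): Cayley–Hamilton transfer

Let `ρW, ρ : GaloisRepAdic A` over a noetherian local ring `A`.  If the characteristic polynomial
of `ρ(τ)` kills `ρW(τ)` for every Frobenius element `τ` at a prime outside a finite set `S`, then
the characteristic polynomial of `ρ(σ)` kills `ρW(σ)` for EVERY `σ ∈ Gal(ℚ̄/ℚ)`
(`aeval_charpoly_transfer`).  Proof: Chebotarev (`Fermat.Agent.Lib.Cheb.chebotarev`) +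
adic continuity of both representations + Krull's intersection theorem.

This is how the chain of S58 compares the Tate module of `W` at an auxiliary prime `λ` (where only
the Frobenius *relation* `F² - a_ℓ F + ℓ = 0` is available, not the characteristic polynomial) with
the `λ`-adic representation attached to a newform by S35/S36.
-/

set_option autoImplicit false

namespace Fermat.Agent.S58.H999

open IsLocalRing Polynomial

section Alg

variable {R : Type*} [CommRing R] {M : Type*} [AddCommGroup M] [Module R M]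

/-- A linear map sends `I • ⊤` into `I • ⊤`. -/
theorem end_mem_smul_top (I : Ideal R) (f : Module.End R M) {x : M}
    (hx : x ∈ I • (⊤ : Submodule R M)) : f x ∈ I • (⊤ : Submodule R M) := by
  refine Submodule.smul_induction_on hx ?_ ?_
  · intro a ha w _
    rw [map_smul]
    exact Submodule.smul_mem_smul ha Submodule.mem_top
  · intro x y hx hy
    rw [map_add]
    exact Submodule.add_mem _ hx hy

/-- Coordinates of an element of `I • ⊤` lie in `I`. -/
theorem repr_mem_of_smul_top {ι : Type*} (b : Module.Basis ι R M) (I : Ideal R) {x : M}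
    (hx : x ∈ I • (⊤ : Submodule R M)) (i : ι) : b.repr x i ∈ I := by
  refine Submodule.smul_induction_on hx ?_ ?_
  · intro a ha w _
    rw [map_smul, Finsupp.smul_apply, smul_eq_mul]
    exact I.mul_mem_right _ ha
  · intro x y hx hy
    rw [map_add, Finsupp.add_apply]
    exact I.add_mem hx hy

variable [Module.Free R M] [Module.Finite R M]

/-- If an endomorphism of a finite free module has image in `I • ⊤`, its trace lies in `I`. -/
theorem trace_mem_of_smul_top (I : Ideal R) (f : Module.End R M)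
    (hf : ∀ v, f v ∈ I • (⊤ : Submodule R M)) : LinearMap.trace R M f ∈ I := by
  classical
  let b := Module.Free.chooseBasis R M
  rw [LinearMap.trace_eq_matrix_trace R b, Matrix.trace]
  refine I.sum_mem fun i _ => ?_
  rw [Matrix.diag_apply, LinearMap.toMatrix_apply]
  exact repr_mem_of_smul_top b I (hf _) i

/-- An endomorphism congruent to the identity modulo `I` has determinant `≡ 1` modulo `I`. -/
theorem det_sub_one_mem_of_smul_top (I : Ideal R) (f : Module.End R M)
    (hf : ∀ v : M, f v - v ∈ I • (⊤ : Submodule R M)) : LinearMap.det f - 1 ∈ I := by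
  classical
  let b := Module.Free.chooseBasis R M
  have hM : (Ideal.Quotient.mk I).mapMatrix (LinearMap.toMatrix b b f) = 1 := by
    ext i j
    rw [RingHom.mapMatrix_apply, Matrix.map_apply, LinearMap.toMatrix_apply, Matrix.one_apply]
    have h1 : b.repr (f (b j)) i = b.repr (f (b j) - b j) i + b.repr (b j) i := by
      rw [map_sub, Finsupp.sub_apply, sub_add_cancel]
    have h2 : b.repr (f (b j) - b j) i ∈ I := repr_mem_of_smul_top b I (hf (b j)) i
    rw [h1, map_add, Ideal.Quotient.eq_zero_iff_mem.mpr h2, zero_add, Module.Basis.repr_self,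
      Finsupp.single_apply]
    by_cases hij : i = j
    · subst hij; simp
    · have hji : ¬ j = i := fun h => hij h.symm
      simp [hij, hji]
  have hdet : Ideal.Quotient.mk I (LinearMap.det f) = 1 := by
    rw [← LinearMap.det_toMatrix b f, RingHom.map_det, hM, Matrix.det_one]
  rw [← Ideal.Quotient.eq_zero_iff_mem, map_sub, hdet, map_one, sub_self]

/-- The characteristic polynomial in rank `2`. -/
theorem charpoly_eq_of_finrank_two (hrk : Module.finrank R M = 2) (f : Module.End R M) :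
    f.charpoly = X ^ 2 - C (LinearMap.trace R M f) * X + C (LinearMap.det f) := by
  classical
  rcases subsingleton_or_nontrivial R with hR | hR
  · exact Subsingleton.elim _ _
  let b := Module.finBasisOfFinrankEq R M hrk
  rw [← LinearMap.charpoly_toMatrix f b, Matrix.charpoly_fin_two,
    ← LinearMap.trace_eq_matrix_trace R b, LinearMap.det_toMatrix]

end Alg

section Eval

variable {R : Type*} [CommRing R] {M : Type*} [AddCommGroup M] [Module R M]
  {M' : Type*} [AddCommGroup M'] [Module R M'] [Module.Free R M'] [Module.Finite R M']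

/-- Evaluating the characteristic polynomial of a rank-`2` endomorphism `g` at `F`. -/
theorem aeval_charpoly_apply (hrk : Module.finrank R M' = 2) (g : Module.End R M')
    (F : Module.End R M) (v : M) :
    Polynomial.aeval F g.charpoly v
      = F (F v) - LinearMap.trace R M' g • F v + LinearMap.det g • v := by
  rw [charpoly_eq_of_finrank_two hrk g]
  simp only [map_add, map_sub, map_mul, aeval_X, aeval_C, LinearMap.add_apply,
    LinearMap.sub_apply, Module.End.mul_apply, pow_two, Module.algebraMap_end_apply]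

/-- Evaluating a quadratic polynomial at an endomorphism. -/
theorem aeval_quadratic_apply (t d : R) (F : Module.End R M) (v : M) :
    Polynomial.aeval F (X ^ 2 - C t * X + C d : R[X]) v = F (F v) - t • F v + d • v := by
  simp only [map_add, map_sub, map_mul, aeval_X, aeval_C, LinearMap.add_apply,
    LinearMap.sub_apply, Module.End.mul_apply, pow_two, Module.algebraMap_end_apply]

end Eval

section Transfer

variable {A : Type} [CommRing A] [IsLocalRing A] [IsNoetherianRing A]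

/-- **Cayley–Hamilton transfer.**  If `charpoly (ρ τ)` kills `ρW τ` for all Frobenius elements
`τ` at the primes outside a finite set, then `charpoly (ρ σ)` kills `ρW σ` for all `σ`. -/
theorem aeval_charpoly_transfer (ρW ρ : GaloisRepAdic A) (S : Finset ℕ)
    (h : ∀ ℓ : ℕ, ℓ.Prime → ℓ ∉ S →
      ∀ P : ValuationSubring (AlgebraicClosure ℚ), P.LiesOverPrime ℓ →
        ∀ τ : AlgebraicClosure ℚ ≃ₐ[ℚ] AlgebraicClosure ℚ, P.IsFrobeniusAt τ ℓ →
          Polynomial.aeval (ρW.ρ τ) (LinearMap.charpoly (ρ.ρ τ)) = 0)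
    (σ : AlgebraicClosure ℚ ≃ₐ[ℚ] AlgebraicClosure ℚ) :
    Polynomial.aeval (ρW.ρ σ) (LinearMap.charpoly (ρ.ρ σ)) = 0 := by
  apply LinearMap.ext
  intro v
  rw [LinearMap.zero_apply]
  have hbot := Ideal.iInf_pow_smul_eq_bot_of_isLocalRing (R := A) (M := ρW.V)
    (maximalIdeal A) (Ideal.IsPrime.ne_top')
  rw [← Submodule.mem_bot A, ← hbot, Submodule.mem_iInf]
  intro n
  obtain ⟨L₁, hL₁fin, hL₁⟩ := ρW.isAdicContinuous n
  obtain ⟨L₂, hL₂fin, hL₂⟩ := ρ.isAdicContinuous n
  have : FiniteDimensional ℚ L₁ := hL₁fin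
  have : FiniteDimensional ℚ L₂ := hL₂fin
  have hE : FiniteDimensional ℚ ↥(L₁ ⊔ L₂) := IntermediateField.finiteDimensional_sup L₁ L₂
  obtain ⟨ℓ, P, τ, hℓ, hℓS, hP, hτ, -, hτσ⟩ :=
    Fermat.Agent.Lib.Cheb.chebotarev (L₁ ⊔ L₂) hE σ S
  have h0 := h ℓ hℓ hℓS P hP τ hτ
  -- `u = τ⁻¹ σ` is trivial on `L₁ ⊔ L₂`
  have hu : ∀ x ∈ L₁ ⊔ L₂, (τ⁻¹ * σ) x = x := by
    intro x hx
    rw [AlgEquiv.mul_apply, ← hτσ x hx]
    exact τ.symm_apply_apply x
  have hu₁ : ∀ x ∈ L₁, (τ⁻¹ * σ) x = x := fun x hx => hu x ((le_sup_left : L₁ ≤ _) hx)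
  have hu₂ : ∀ x ∈ L₂, (τ⁻¹ * σ) x = x := fun x hx => hu x ((le_sup_right : L₂ ≤ _) hx)
  have hσ : σ = τ * (τ⁻¹ * σ) := by group
  set I : Ideal A := maximalIdeal A ^ n with hI
  -- congruence of `ρW`
  have e₁ : ∀ w : ρW.V, ρW.ρ σ w - ρW.ρ τ w ∈ I • (⊤ : Submodule A ρW.V) := by
    intro w
    have : ρW.ρ σ w - ρW.ρ τ w = ρW.ρ τ (ρW.ρ (τ⁻¹ * σ) w - w) := by
      conv_lhs => rw [hσ]
      rw [map_mul, Module.End.mul_apply, map_sub]
    rw [this]
    exact end_mem_smul_top I _ (hL₁ _ hu₁ w)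
  -- congruence of `ρ`
  have e₂ : ∀ w : ρ.V, (ρ.ρ σ - ρ.ρ τ) w ∈ I • (⊤ : Submodule A ρ.V) := by
    intro w
    have : (ρ.ρ σ - ρ.ρ τ) w = ρ.ρ τ (ρ.ρ (τ⁻¹ * σ) w - w) := by
      conv_lhs => rw [hσ]
      rw [map_mul, LinearMap.sub_apply, Module.End.mul_apply, map_sub]
    rw [this]
    exact end_mem_smul_top I _ (hL₂ _ hu₂ w)
  have ht : LinearMap.trace A ρ.V (ρ.ρ σ) - LinearMap.trace A ρ.V (ρ.ρ τ) ∈ I := by
    rw [← map_sub]
    exact trace_mem_of_smul_top I _ e₂
  have hd : LinearMap.det (ρ.ρ σ) - LinearMap.det (ρ.ρ τ) ∈ I := by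
    have h1 : LinearMap.det (ρ.ρ (τ⁻¹ * σ)) - 1 ∈ I :=
      det_sub_one_mem_of_smul_top I _ (hL₂ _ hu₂)
    have h2 : LinearMap.det (ρ.ρ σ) - LinearMap.det (ρ.ρ τ)
        = LinearMap.det (ρ.ρ τ) * (LinearMap.det (ρ.ρ (τ⁻¹ * σ)) - 1) := by
      conv_lhs => rw [hσ]
      rw [map_mul, map_mul]
      ring
    rw [h2]
    exact I.mul_mem_left _ h1
  -- the two evaluations
  have hτv : ρW.ρ τ (ρW.ρ τ v) - LinearMap.trace A ρ.V (ρ.ρ τ) • ρW.ρ τ v
      + LinearMap.det (ρ.ρ τ) • v = 0 := by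
    rw [← aeval_charpoly_apply ρ.finrank_eq, h0, LinearMap.zero_apply]
  rw [aeval_charpoly_apply ρ.finrank_eq]
  have key : ρW.ρ σ (ρW.ρ σ v) - LinearMap.trace A ρ.V (ρ.ρ σ) • ρW.ρ σ v
        + LinearMap.det (ρ.ρ σ) • v
      = (ρW.ρ σ (ρW.ρ σ v - ρW.ρ τ v) + (ρW.ρ σ (ρW.ρ τ v) - ρW.ρ τ (ρW.ρ τ v)))
        - ((LinearMap.trace A ρ.V (ρ.ρ σ) - LinearMap.trace A ρ.V (ρ.ρ τ)) • ρW.ρ σ v
            + LinearMap.trace A ρ.V (ρ.ρ τ) • (ρW.ρ σ v - ρW.ρ τ v))
        + (LinearMap.det (ρ.ρ σ) - LinearMap.det (ρ.ρ τ)) • v := by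
    have : ρW.ρ σ (ρW.ρ σ v) - LinearMap.trace A ρ.V (ρ.ρ σ) • ρW.ρ σ v
        + LinearMap.det (ρ.ρ σ) • v
      = (ρW.ρ σ (ρW.ρ σ v) - LinearMap.trace A ρ.V (ρ.ρ σ) • ρW.ρ σ v
        + LinearMap.det (ρ.ρ σ) • v)
        - (ρW.ρ τ (ρW.ρ τ v) - LinearMap.trace A ρ.V (ρ.ρ τ) • ρW.ρ τ v
          + LinearMap.det (ρ.ρ τ) • v) := by
      rw [hτv, sub_zero]
    rw [this, map_sub, sub_smul, sub_smul, smul_sub]
    abel
  rw [key]
  refine Submodule.add_mem _ (Submodule.sub_mem _ (Submodule.add_mem _ ?_ ?_)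
    (Submodule.add_mem _ ?_ ?_)) ?_
  · exact end_mem_smul_top I _ (e₁ v)
  · exact e₁ _
  · exact Submodule.smul_mem_smul ht Submodule.mem_top
  · exact Submodule.smul_mem _ _ (e₁ v)
  · exact Submodule.smul_mem_smul hd Submodule.mem_top

end Transfer

end Fermat.Agent.S58.H999
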